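/-
S55 / 10-PROFIN, LOCAL half (helper26).  Abstract part.

`GQ = Gal(ℚ̄/ℚ)`, `r : H →* GQ` a "local group", `D ≤ GQ` a subgroup in which `r(H)` is dense for
the Krull topology (in the elementary form: modulo every `Gal(ℚ̄/F)`, `F/ℚ` finite).
The local vanishing conditions occurring in the Prelude's `sha₁` / `sha₂` are rewritten as
conditions on level-constant cochains of `GQ` restricted to `D`.
-/
import Mathlib
import Fermat.Prelude.Def_GroupCohomology_ContinuousUnramified

set_option autoImplicit false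
set_option linter.style.haveILetI false

open CategoryTheory groupCohomology

noncomputable section

namespace Fermat.Agent.S55.ProfinLocal26.Abs

/-- The absolute Galois group of `ℚ`. -/
abbrev GQ : Type := AlgebraicClosure ℚ ≃ₐ[ℚ] AlgebraicClosure ℚ

/-- the number fields inside `ℚ̄` -/
abbrev NF : Type := IntermediateField ℚ (AlgebraicClosure ℚ)

variable {k : Type} [CommRing k]

/-- Every vector is fixed by an open subgroup. -/
def IsSmooth (M : Rep.{0} k GQ) : Prop :=
  ∀ m : M, ∃ F : NF, FiniteDimensional ℚ F ∧ ∀ s ∈ F.fixingSubgroup, M.ρ s m = m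

/-- An open subgroup acts trivially. -/
def IsUniformlySmooth (M : Rep.{0} k GQ) : Prop :=
  ∃ F : NF, FiniteDimensional ℚ F ∧ ∀ s ∈ F.fixingSubgroup, M.ρ s = 1

theorem IsUniformlySmooth.isSmooth {M : Rep.{0} k GQ} (h : IsUniformlySmooth M) : IsSmooth M := by
  obtain ⟨F, hF, hs⟩ := h
  exact fun m => ⟨F, hF, fun s hsF => by rw [hs s hsF]; rfl⟩

/-- A smooth representation on a finitely generated module is uniformly smooth. -/
theorem isUniformlySmooth_of_finite {M : Rep.{0} k GQ} [Module.Finite k M] (h : IsSmooth M) :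
    IsUniformlySmooth M := by
  classical
  obtain ⟨T, hT⟩ := (Module.finite_def (R := k) (M := M)).1 inferInstance
  choose F hF hFs using h
  refine ⟨⨆ t ∈ T, F t, ?_, ?_⟩
  · exact IntermediateField.finiteDimensional_iSup_of_finset' (fun t _ => hF t)
  · intro s hs
    have hfix : ∀ t ∈ T, M.ρ s t = t := by
      intro t ht
      apply hFs t s
      refine IntermediateField.fixingSubgroup_antitone ?_ hs
      exact le_iSup₂_of_le t ht le_rfl
    apply LinearMap.ext
    intro m
    have hm : m ∈ Submodule.span k (T : Set M) := by rw [hT]; trivial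
    induction hm using Submodule.span_induction with
    | mem x hx => exact hfix x hx
    | zero => simp
    | add x y _ _ hx hy => rw [map_add, hx, hy]; rfl
    | smul c x _ hx => rw [map_smul, hx]; rfl

/-- `r(H)` lies in `D` and is dense in it. -/
structure IsDenseIn {H : Type} [Group H] (r : H →* GQ) (D : Subgroup GQ) : Prop where
  mem : ∀ τ, r τ ∈ D
  dense : ∀ σ ∈ D, ∀ F : NF, FiniteDimensional ℚ F → ∃ τ : H, (r τ)⁻¹ * σ ∈ F.fixingSubgroup

/-! ### Normal closures give normal open subgroups -/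

theorem exists_normal_ge (F : NF) [FiniteDimensional ℚ F] :
    ∃ F' : NF, FiniteDimensional ℚ F' ∧ F ≤ F' ∧
      ∀ (g : GQ) (s : GQ), s ∈ F'.fixingSubgroup → g⁻¹ * s * g ∈ F'.fixingSubgroup := by
  classical
  let F' : NF := ⨆ f : F →ₐ[ℚ] AlgebraicClosure ℚ, f.fieldRange
  have hstab : ∀ (g : GQ) (x : AlgebraicClosure ℚ), x ∈ F' → g x ∈ F' := by
    intro g
    have hle : F' ≤ F'.comap (g : AlgebraicClosure ℚ →ₐ[ℚ] AlgebraicClosure ℚ) := by
      refine iSup_le fun f => ?_
      rintro _ ⟨y, rfl⟩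
      exact (le_iSup (fun f : F →ₐ[ℚ] AlgebraicClosure ℚ => f.fieldRange)
        ((g : AlgebraicClosure ℚ →ₐ[ℚ] AlgebraicClosure ℚ).comp f)) ⟨y, rfl⟩
    exact fun x hx => hle hx
  have hfin : FiniteDimensional ℚ F' := by
    have : ∀ f : F →ₐ[ℚ] AlgebraicClosure ℚ, FiniteDimensional ℚ f.fieldRange := fun f =>
      f.toLinearMap.finiteDimensional_range
    exact IntermediateField.finiteDimensional_iSup_of_finite
  have hle : F ≤ F' := by
    intro x hx
    exact (le_iSup (fun f : F →ₐ[ℚ] AlgebraicClosure ℚ => f.fieldRange) F.val) ⟨⟨x, hx⟩, rfl⟩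
  refine ⟨F', hfin, hle, ?_⟩
  intro g s hs
  rw [IntermediateField.mem_fixingSubgroup_iff] at hs ⊢
  intro x hx
  show g⁻¹ (s (g x)) = x
  rw [hs (g x) (hstab g x hx)]
  exact g.symm_apply_apply x

/-! ### `H¹` -/

section H1

variable {H : Type} [Group H] (r : H →* GQ) (D : Subgroup GQ)

theorem map_H1π_eq_zero_iff (hD : IsDenseIn r D) (M : Rep.{0} k GQ) (hsm : IsSmooth M)
    (c : cocycles₁ M) (hc : IsLevelConstant₁ (MonoidHom.id GQ) c) :
    (groupCohomology.map r (𝟙 (Rep.res r M)) 1).hom ((H1π M).hom c) = 0 ↔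
      ∃ m : M, ∀ σ ∈ D, c σ = M.ρ σ m - m := by
  have h1 : (groupCohomology.map r (𝟙 (Rep.res r M)) 1).hom ((H1π M).hom c) =
      (H1π (Rep.res r M)).hom ((mapCocycles₁ r (𝟙 (Rep.res r M))).hom c) :=
    H1π_comp_map_apply r (𝟙 (Rep.res r M)) c
  rw [h1]
  erw [H1π_eq_zero_iff]
  constructor
  · rintro ⟨m, hm⟩
    refine ⟨m, fun σ hσ => ?_⟩
    obtain ⟨F, hF, hcF⟩ := hc
    obtain ⟨Fm, hFm, hmF⟩ := hsm m
    haveI := hF; haveI := hFm
    obtain ⟨τ, hτ⟩ := hD.dense σ hσ (F ⊔ Fm) inferInstance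
    set s : GQ := (r τ)⁻¹ * σ with hs
    have hσs : σ = r τ * s := by rw [hs, mul_inv_cancel_left]
    have hsF : s ∈ F.fixingSubgroup := IntermediateField.fixingSubgroup_antitone le_sup_left hτ
    have hsFm : s ∈ Fm.fixingSubgroup := IntermediateField.fixingSubgroup_antitone le_sup_right hτ
    have h2 := congrFun hm τ
    have h3 : c (r τ) = M.ρ (r τ) m - m := by
      have : (d₀₁ (Rep.res r M)).hom m τ = M.ρ (r τ) m - m := rfl
      rw [← this, h2]
      rfl
    rw [hσs, hcF (r τ) s hsF, h3, map_mul, Module.End.mul_apply, hmF s hsFm]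
  · rintro ⟨m, hm⟩
    refine ⟨m, funext fun τ => ?_⟩
    have : (d₀₁ (Rep.res r M)).hom m τ = M.ρ (r τ) m - m := rfl
    rw [this, ← hm (r τ) (hD.mem τ)]
    rfl

end H1

end Fermat.Agent.S55.ProfinLocal26.Abs
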