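/-
S55 / 10-PROFIN, LOCAL half (helper26).  Abstract `H²` part.

For `r : H →* GQ` with dense image in a subgroup `D ≤ GQ`, a uniformly smooth `M` and a
level-constant 2-cochain `f` of `GQ`: the pull-back of `f` along `r` is a level coboundary of `H`
iff `f` restricted to `D × D` is the coboundary of a level-constant 1-cochain of `GQ`.
-/
import Mathlib
import Fermat.Prelude.Def_GroupCohomology_ContinuousUnramified
import Fermat.Agent.S55.ProfinLocal26.Abs

set_option autoImplicit false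
set_option linter.style.haveILetI false

open CategoryTheory groupCohomology

noncomputable section

namespace Fermat.Agent.S55.ProfinLocal26.AbsH2

open Fermat.Agent.S55.ProfinLocal26.Abs

variable {k : Type} [CommRing k]
variable {H : Type} [Group H] (r : H →* GQ) (D : Subgroup GQ)

/-- the candidate extension of a level-constant cochain `y` of `H` to `GQ` -/
def extendCochain {X : Type} [Zero X] (N : Subgroup GQ) (y : H → X) : GQ → X := by
  classical
  exact fun g => if h : ∃ τ : H, (r τ)⁻¹ * g ∈ N then y h.choose else 0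

theorem extendCochain_eq {X : Type} [Zero X] (N : Subgroup GQ) (y : H → X)
    (hy : ∀ τ s : H, r s ∈ N → y (τ * s) = y τ) (g : GQ) (τ : H) (hτ : (r τ)⁻¹ * g ∈ N) :
    extendCochain r N y g = y τ := by
  classical
  have h : ∃ τ : H, (r τ)⁻¹ * g ∈ N := ⟨τ, hτ⟩
  unfold extendCochain
  simp only [dif_pos h]
  set τ₀ := h.choose with hτ₀
  have h₀ : (r τ₀)⁻¹ * g ∈ N := h.choose_spec
  have hs : r (τ⁻¹ * τ₀) ∈ N := by
    have : r (τ⁻¹ * τ₀) = ((r τ)⁻¹ * g) * ((r τ₀)⁻¹ * g)⁻¹ := by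
      rw [map_mul, map_inv]; group
    rw [this]
    exact N.mul_mem hτ (N.inv_mem h₀)
  have : τ₀ = τ * (τ⁻¹ * τ₀) := by group
  rw [this, hy τ _ hs]

theorem extendCochain_mul_right {X : Type} [Zero X] (N : Subgroup GQ) (y : H → X)
    (hy : ∀ τ s : H, r s ∈ N → y (τ * s) = y τ) (g n : GQ) (hn : n ∈ N) :
    extendCochain r N y (g * n) = extendCochain r N y g := by
  classical
  by_cases h : ∃ τ : H, (r τ)⁻¹ * g ∈ N
  · obtain ⟨τ, hτ⟩ := h
    rw [extendCochain_eq r N y hy g τ hτ, extendCochain_eq r N y hy (g * n) τ]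
    rw [← mul_assoc]
    exact N.mul_mem hτ hn
  · have h' : ¬ ∃ τ : H, (r τ)⁻¹ * (g * n) ∈ N := by
      rintro ⟨τ, hτ⟩
      refine h ⟨τ, ?_⟩
      have : (r τ)⁻¹ * g = ((r τ)⁻¹ * (g * n)) * n⁻¹ := by group
      rw [this]
      exact N.mul_mem hτ (N.inv_mem hn)
    unfold extendCochain
    simp only [dif_neg h, dif_neg h']

theorem pullback_mem_levelCoboundaries₂_iff (hD : IsDenseIn r D) (M : Rep.{0} k GQ)
    (hM : IsUniformlySmooth M) (f : GQ × GQ → M)
    (hf : IsLevelConstant₂ (MonoidHom.id GQ) f) :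
    cochainsPullPush₂ r (LinearMap.id : M →ₗ[k] Rep.res r M) f ∈
        levelCoboundaries₂ r (Rep.res r M) ↔
      ∃ b : GQ → M, IsLevelConstant₁ (MonoidHom.id GQ) b ∧
        ∀ σ ∈ D, ∀ σ' ∈ D, f (σ, σ') = M.ρ σ (b σ') - b (σ * σ') + b σ := by
  rw [mem_levelCoboundaries₂_iff]
  constructor
  · rintro ⟨y, hy, hdy⟩
    obtain ⟨Fy, hFy, hyF⟩ := hy
    obtain ⟨Ff, hFf, hfF⟩ := hf
    obtain ⟨FM, hFM, hMF⟩ := hM
    haveI := hFy; haveI := hFf; haveI := hFM
    obtain ⟨F, hF, hle, hnorm⟩ := exists_normal_ge (Fy ⊔ Ff ⊔ FM)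
    set N : Subgroup GQ := F.fixingSubgroup with hN
    have hNy : N ≤ Fy.fixingSubgroup :=
      IntermediateField.fixingSubgroup_antitone ((le_sup_left.trans le_sup_left).trans hle)
    have hNf : N ≤ Ff.fixingSubgroup :=
      IntermediateField.fixingSubgroup_antitone ((le_sup_right.trans le_sup_left).trans hle)
    have hNM : N ≤ FM.fixingSubgroup :=
      IntermediateField.fixingSubgroup_antitone (le_sup_right.trans hle)
    have hy' : ∀ τ s : H, r s ∈ N → y (τ * s) = y τ := fun τ s hs => hyF τ s (hNy hs)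
    refine ⟨extendCochain r N y, ⟨F, hF, fun g s hs => ?_⟩, ?_⟩
    · exact extendCochain_mul_right r N y hy' g s hs
    · intro σ hσ σ' hσ'
      obtain ⟨τ, hτ⟩ := hD.dense σ hσ F hF
      obtain ⟨τ', hτ'⟩ := hD.dense σ' hσ' F hF
      set n : GQ := (r τ)⁻¹ * σ with hn
      set n' : GQ := (r τ')⁻¹ * σ' with hn'
      have hσn : σ = r τ * n := by rw [hn, mul_inv_cancel_left]
      have hσn' : σ' = r τ' * n' := by rw [hn', mul_inv_cancel_left]
      have hb : extendCochain r N y σ = y τ := extendCochain_eq r N y hy' σ τ hτ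
      have hb' : extendCochain r N y σ' = y τ' := extendCochain_eq r N y hy' σ' τ' hτ'
      have hbb : extendCochain r N y (σ * σ') = y (τ * τ') := by
        apply extendCochain_eq r N y hy'
        have : (r (τ * τ'))⁻¹ * (σ * σ') = ((r τ')⁻¹ * n * r τ') * n' := by
          rw [hσn, hσn', map_mul]; group
        rw [this]
        exact N.mul_mem (hnorm (r τ') n hτ) hτ'
      have hfe : f (σ, σ') = f (r τ, r τ') := by
        rw [hσn, hσn']
        exact hfF (r τ) (r τ') n n' (hNf hτ) (hNf hτ')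
      have hd : f (r τ, r τ') = M.ρ (r τ) (y τ') - y (τ * τ') + y τ := by
        have := congrFun hdy (τ, τ')
        rw [d₁₂_hom_apply] at this
        exact this.symm
      have hρ : M.ρ σ = M.ρ (r τ) := by
        rw [hσn, map_mul, hMF n (hNM hτ), mul_one]
      rw [hfe, hd, hb, hb', hbb, hρ]
  · rintro ⟨b, ⟨Fb, hFb, hbF⟩, hb⟩
    refine ⟨fun τ => b (r τ), ⟨Fb, hFb, fun τ s hs => ?_⟩, ?_⟩
    · show b (r (τ * s)) = b (r τ)
      rw [map_mul]
      exact hbF (r τ) (r s) hs
    · funext ⟨τ, τ'⟩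
      rw [d₁₂_hom_apply]
      show M.ρ (r τ) (b (r τ')) - b (r (τ * τ')) + b (r τ) = f (r τ, r τ')
      rw [map_mul, hb (r τ) (hD.mem τ) (r τ') (hD.mem τ')]

end Fermat.Agent.S55.ProfinLocal26.AbsH2
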