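/-
S55 / 10-PROFIN, LOCAL half (helper26).  Instantiation at the finite places of `S`.

`decomp q` is the decomposition group of the Prelude place above `q` inside `GQ = Gal(ℚ̄/ℚ)`.
`LocalDensity q` is the named density input (field-theoretic half): the image of the local Galois
group `Gal(PadicAlgCl q / ℚ_q)` is dense in `decomp q`.  Under it the local conditions of `sha₁`
and `sha₂` at `q` become conditions on level-constant cochains of `GQ` restricted to `decomp q`.
-/
import Mathlib
import Fermat.Prelude.Def_GroupCohomology_ContinuousUnramified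
import Fermat.Agent.S55.ProfinLocal26.Abs
import Fermat.Agent.S55.ProfinLocal26.AbsH2

set_option autoImplicit false
set_option linter.style.haveILetI false

open CategoryTheory groupCohomology ExtCitation

noncomputable section

namespace Fermat.Agent.S55.ProfinLocal26.Local

open Fermat.Agent.S55.ProfinLocal26.Abs Fermat.Agent.S55.ProfinLocal26.AbsH2

/-- The decomposition group in `GQ` of the Prelude place above `q`. -/
def decomp (q : Nat.Primes) : Subgroup GQ :=
  (primeLocalPlace q).decompositionSubgroup ℚ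

theorem primeLocalToGlobal_mem_decomp (q : Nat.Primes) (τ : primeLocalGaloisGroup q) :
    primeLocalToGlobal q τ ∈ decomp q := by
  letI : Fact (q : ℕ).Prime := ⟨q.2⟩
  exact localGaloisToGlobal_mem_decompositionSubgroup (q : ℕ) τ

/-- The named field-theoretic input: the image of the local Galois group is dense in the
decomposition group (modulo every open subgroup `Gal(ℚ̄/F)`). -/
def LocalDensity (q : Nat.Primes) : Prop :=
  IsDenseIn (primeLocalToGlobal q) (decomp q)

theorem localDensity_iff (q : Nat.Primes) :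
    LocalDensity q ↔ ∀ σ ∈ decomp q, ∀ F : NF, FiniteDimensional ℚ F →
      ∃ τ : primeLocalGaloisGroup q, (primeLocalToGlobal q τ)⁻¹ * σ ∈ F.fixingSubgroup :=
  ⟨fun h => h.dense, fun h => ⟨primeLocalToGlobal_mem_decomp q, h⟩⟩

/-- Density in the element-wise form: `σ` and `r τ` agree on `F`. -/
theorem localDensity_of_agree (q : Nat.Primes)
    (h : ∀ σ ∈ decomp q, ∀ F : NF, FiniteDimensional ℚ F →
      ∃ τ : primeLocalGaloisGroup q, ∀ x ∈ F, primeLocalToGlobal q τ x = σ x) :
    LocalDensity q := by
  refine (localDensity_iff q).2 fun σ hσ F hF => ?_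
  obtain ⟨τ, hτ⟩ := h σ hσ F hF
  refine ⟨τ, ?_⟩
  rw [IntermediateField.mem_fixingSubgroup_iff]
  intro x hx
  show (primeLocalToGlobal q τ)⁻¹ (σ x) = x
  rw [← hτ x hx]
  exact (primeLocalToGlobal q τ).symm_apply_apply x

/-- Density follows from the equality `range = decomposition group`. -/
theorem localDensity_of_range_eq (q : Nat.Primes)
    (h : (primeLocalToGlobal q).range = decomp q) : LocalDensity q := by
  refine (localDensity_iff q).2 fun σ hσ F _ => ?_
  rw [← h] at hσ
  obtain ⟨τ, rfl⟩ := hσ
  exact ⟨τ, by rw [inv_mul_cancel]; exact Subgroup.one_mem _⟩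

section H1

variable {K : Type} [Field K] (S : Finset Nat.Primes)

/-- The local condition of `sha₁` at a finite place `q ∈ S`, on level-constant cocycles. -/
theorem locRes_H1π_eq_zero_iff (q : ↥S) (hq : LocalDensity q.1) (A : Rep.{0} K GQ)
    (hsm : IsSmooth A) (c : cocycles₁ A) (hc : IsLevelConstant₁ (MonoidHom.id GQ) c) :
    (locRes (extArithLoc S) A (Sum.inr q)).hom ((H1π A).hom c) = 0 ↔
      ∃ m : A, ∀ σ ∈ decomp q.1, c σ = A.ρ σ m - m :=
  map_H1π_eq_zero_iff (primeLocalToGlobal q.1) (decomp q.1) hq A hsm c hc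

/-- Same, for the `S`-level-constant cocycles of `continuousH1S`. -/
theorem locRes_H1π_eq_zero_iff_of_levelS (q : ↥S) (hq : LocalDensity q.1) (A : Rep.{0} K GQ)
    (hsm : IsSmooth A) (c : cocycles₁ A) (hc : IsLevelConstantS₁ S c) :
    (locRes (extArithLoc S) A (Sum.inr q)).hom ((H1π A).hom c) = 0 ↔
      ∃ m : A, ∀ σ ∈ decomp q.1, c σ = A.ρ σ m - m :=
  locRes_H1π_eq_zero_iff S q hq A hsm c hc.isLevelConstant₁

end H1

section H2

variable {k : Type} [CommRing k] (S : Finset Nat.Primes)

/-- The local condition of `sha₂` at a finite place `q`, on level-constant 2-cocycles. -/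
theorem locRes₂S_eq_zero_iff (q : Nat.Primes) (hq : LocalDensity q) (M : Rep.{0} k GQ)
    (hM : IsUniformlySmooth M) (f : ↥(levelCocyclesS₂ S M)) :
    locRes₂S S M (primeLocalToGlobal q) (continuousH2Sπ S M f) = 0 ↔
      ∃ b : GQ → M, IsLevelConstant₁ (MonoidHom.id GQ) b ∧
        ∀ σ ∈ decomp q, ∀ σ' ∈ decomp q,
          (f : GQ × GQ → M) (σ, σ') = M.ρ σ (b σ') - b (σ * σ') + b σ := by
  have hf2 : IsLevelConstant₂ (MonoidHom.id GQ) (f : GQ × GQ → M) := f.2.2.isLevelConstant₂
  rw [← pullback_mem_levelCoboundaries₂_iff (primeLocalToGlobal q) (decomp q) hq M hM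
    (f : GQ × GQ → M) hf2]
  have h1 : locRes₂S S M (primeLocalToGlobal q) (continuousH2Sπ S M f) =
      continuousH2π (primeLocalToGlobal q) (Rep.res (primeLocalToGlobal q) M)
        (levelCocycles₂Map (rH := MonoidHom.id _) (rG := primeLocalToGlobal q)
          (primeLocalToGlobal q) (fun _ => rfl)
          (LinearMap.id : M →ₗ[k] Rep.res (primeLocalToGlobal q) M) (fun _ _ => rfl)
          (levelCocyclesS₂ToLevelCocycles₂ S M f)) := rfl
  rw [h1, continuousH2π_eq_zero_iff]
  rfl

end H2

end Fermat.Agent.S55.ProfinLocal26.Local
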