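/-
S55 / 10-PROFIN, LOCAL half (helper26).  Density of the local Galois group in the decomposition
group: for `σ` in the decomposition group of the Prelude place above `q` and every number field
`F ⊆ ℚ̄` there is `τ ∈ Gal(PadicAlgCl q / ℚ_q)` whose restriction to `ℚ̄` agrees with `σ` on `F`.

Proof without completions: write `F = ℚ(α)`, let `g` be the minimal polynomial of `ι α` over
`ℚ_q`.  Approximating `g` by rational polynomials `h` and using that `σ` preserves every ball
`{‖ι ·‖ ≤ ‖q‖ ^ m}` one gets `g (ι (σ α)) = 0`; so `ι α` and `ι (σ α)` are conjugate over `ℚ_q`.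
-/
import Mathlib
import Fermat.Prelude.Def_GroupCohomology_ContinuousUnramified
import Fermat.Agent.S55.ProfinLocal26.Abs
import Fermat.Agent.S55.ProfinLocal26.Local

set_option autoImplicit false
set_option linter.style.haveILetI false

open CategoryTheory groupCohomology ExtCitation Polynomial
open scoped Pointwise

noncomputable section

namespace Fermat.Agent.S55.ProfinLocal26.Decomp

open Fermat.Agent.S55.ProfinLocal26.Abs Fermat.Agent.S55.ProfinLocal26.Local

variable (q : ℕ) [Fact q.Prime]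

local instance towerQQqPadic_pl26 : IsScalarTower ℚ ℚ_[q] (PadicAlgCl q) :=
  IsScalarTower.of_algebraMap_eq' (Subsingleton.elim _ _)

/-! ### Approximation of polynomials over `ℚ_q` by rational polynomials -/

theorem exists_rat_poly_approx (β₁ β₂ : PadicAlgCl q) (g : ℚ_[q][X]) :
    ∀ ε : ℝ, 0 < ε → ∃ h : ℚ[X],
      ‖aeval β₁ g - aeval β₁ h‖ ≤ ε ∧ ‖aeval β₂ g - aeval β₂ h‖ ≤ ε := by
  induction g using Polynomial.induction_on' with
  | add g₁ g₂ h₁ h₂ =>
    intro ε hε
    obtain ⟨k₁, hk₁, hk₁'⟩ := h₁ (ε / 2) (half_pos hε)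
    obtain ⟨k₂, hk₂, hk₂'⟩ := h₂ (ε / 2) (half_pos hε)
    refine ⟨k₁ + k₂, ?_, ?_⟩
    · have : aeval β₁ (g₁ + g₂) - aeval β₁ (k₁ + k₂) =
          (aeval β₁ g₁ - aeval β₁ k₁) + (aeval β₁ g₂ - aeval β₁ k₂) := by
        simp only [map_add]; ring
      rw [this]
      calc _ ≤ ‖aeval β₁ g₁ - aeval β₁ k₁‖ + ‖aeval β₁ g₂ - aeval β₁ k₂‖ := norm_add_le _ _
        _ ≤ ε / 2 + ε / 2 := add_le_add hk₁ hk₂
        _ = ε := add_halves ε
    · have : aeval β₂ (g₁ + g₂) - aeval β₂ (k₁ + k₂) =
          (aeval β₂ g₁ - aeval β₂ k₁) + (aeval β₂ g₂ - aeval β₂ k₂) := by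
        simp only [map_add]; ring
      rw [this]
      calc _ ≤ ‖aeval β₂ g₁ - aeval β₂ k₁‖ + ‖aeval β₂ g₂ - aeval β₂ k₂‖ := norm_add_le _ _
        _ ≤ ε / 2 + ε / 2 := add_le_add hk₁' hk₂'
        _ = ε := add_halves ε
  | monomial n a =>
    intro ε hε
    set B : ℝ := max (‖β₁‖ ^ n) (‖β₂‖ ^ n) + 1 with hB
    have hBpos : 0 < B := by positivity
    obtain ⟨a', ha'⟩ := Padic.rat_dense q a (div_pos hε hBpos)
    have key : ∀ β : PadicAlgCl q, ‖β‖ ^ n ≤ B →
        ‖aeval β (monomial n a) - aeval β (monomial n a' : ℚ[X])‖ ≤ ε := by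
      intro β hβ
      have h1 : aeval β (monomial n a) - aeval β (monomial n a' : ℚ[X]) =
          algebraMap ℚ_[q] (PadicAlgCl q) (a - (a' : ℚ_[q])) * β ^ n := by
        rw [aeval_monomial, aeval_monomial, map_sub, sub_mul]
        congr 2
      rw [h1, norm_mul, norm_pow, norm_algebraMap']
      calc ‖a - (a' : ℚ_[q])‖ * ‖β‖ ^ n ≤ (ε / B) * B :=
            mul_le_mul ha'.le hβ (by positivity) (by positivity)
        _ = ε := div_mul_cancel₀ ε hBpos.ne'
    refine ⟨monomial n a', key β₁ ?_, key β₂ ?_⟩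
    · exact (le_max_left _ _).trans (le_add_of_nonneg_right zero_le_one)
    · exact (le_max_right _ _).trans (le_add_of_nonneg_right zero_le_one)


/-! ### The decomposition group preserves the balls `{‖ι ·‖ ≤ ‖ι c‖}`, `c` rational -/

theorem apply_mem_padicPlace_iff (σ : GQ) (hσ : σ ∈ (padicPlace q).decompositionSubgroup ℚ)
    (y : AlgebraicClosure ℚ) : σ y ∈ padicPlace q ↔ y ∈ padicPlace q := by
  have h : σ • padicPlace q = padicPlace q := MulAction.mem_stabilizer_iff.1 hσ
  have hy : σ y = σ • y := rfl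
  constructor
  · intro hy'
    rw [← h, hy] at hy'
    exact ValuationSubring.smul_mem_pointwise_smul_iff.1 hy'
  · intro hy'
    rw [← h, hy]
    exact ValuationSubring.smul_mem_pointwise_smul_iff.2 hy'

theorem norm_apply_le_iff (σ : GQ) (hσ : σ ∈ (padicPlace q).decompositionSubgroup ℚ)
    (y c : AlgebraicClosure ℚ) (hc : c ≠ 0) (hσc : σ c = c) :
    ‖padicEmbedding q (σ y)‖ ≤ ‖padicEmbedding q c‖ ↔
      ‖padicEmbedding q y‖ ≤ ‖padicEmbedding q c‖ := by
  have hιc : padicEmbedding q c ≠ 0 := by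
    intro h0
    exact hc ((padicEmbedding q).toRingHom.injective (by rw [AlgHom.toRingHom_eq_coe,
      RingHom.coe_coe, h0, map_zero]))
  have hpos : 0 < ‖padicEmbedding q c‖ := norm_pos_iff.2 hιc
  have key : ∀ z : AlgebraicClosure ℚ,
      ‖padicEmbedding q z‖ ≤ ‖padicEmbedding q c‖ ↔ z / c ∈ padicPlace q := by
    intro z
    rw [mem_padicPlace_iff, map_div₀, ← NNReal.coe_le_coe, coe_nnnorm, norm_div, NNReal.coe_one,
      div_le_one hpos]
  rw [key, key, ← apply_mem_padicPlace_iff q σ hσ (y / c), map_div₀, hσc]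

theorem norm_natCast_lt_one : ‖((q : ℕ) : PadicAlgCl q)‖ < 1 := by
  rw [← map_natCast (algebraMap ℚ_[q] (PadicAlgCl q)) q, norm_algebraMap']
  exact Padic.norm_p_lt_one

theorem norm_natCast_pos : 0 < ‖((q : ℕ) : PadicAlgCl q)‖ := by
  rw [norm_pos_iff]
  exact_mod_cast (Fact.out : q.Prime).ne_zero

/-- `ι α` and `ι (σ α)` are conjugate over `ℚ_q` when `σ` lies in the decomposition group. -/
theorem aeval_apply_minpoly_eq_zero (σ : GQ) (hσ : σ ∈ (padicPlace q).decompositionSubgroup ℚ)
    (α : AlgebraicClosure ℚ) :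
    aeval (padicEmbedding q (σ α)) (minpoly ℚ_[q] (padicEmbedding q α)) = 0 := by
  set g := minpoly ℚ_[q] (padicEmbedding q α) with hg
  set c : ℝ := ‖((q : ℕ) : PadicAlgCl q)‖ with hc
  have hc0 : 0 < c := norm_natCast_pos q
  have hc1 : c < 1 := norm_natCast_lt_one q
  have hbound : ∀ m : ℕ, ‖aeval (padicEmbedding q (σ α)) g‖ ≤ 2 * c ^ m := by
    intro m
    obtain ⟨h, h1, h2⟩ := exists_rat_poly_approx q (padicEmbedding q α) (padicEmbedding q (σ α)) g
      (c ^ m) (pow_pos hc0 m)
    have hgα : aeval (padicEmbedding q α) g = 0 := minpoly.aeval _ _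
    rw [hgα, zero_sub, norm_neg] at h1
    -- the rational scalar `q ^ m`
    set d : AlgebraicClosure ℚ := ((q : ℕ) : AlgebraicClosure ℚ) ^ m with hd
    have hd0 : d ≠ 0 := pow_ne_zero _ (by exact_mod_cast (Fact.out : q.Prime).ne_zero)
    have hσd : σ d = d := by rw [hd, map_pow, map_natCast]
    have hιd : ‖padicEmbedding q d‖ = c ^ m := by
      rw [hd, map_pow, map_natCast, norm_pow]
    have e1 : padicEmbedding q (aeval α h) = aeval (padicEmbedding q α) h :=
      (Polynomial.aeval_algHom_apply (padicEmbedding q) α h).symm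
    have e0 : σ (aeval α h) = aeval (σ α) h := by
      have := Polynomial.aeval_algHom_apply
        (σ : AlgebraicClosure ℚ →ₐ[ℚ] AlgebraicClosure ℚ) α h
      simpa using this.symm
    have e2 : padicEmbedding q (σ (aeval α h)) = aeval (padicEmbedding q (σ α)) h := by
      rw [e0]
      exact (Polynomial.aeval_algHom_apply (padicEmbedding q) (σ α) h).symm
    have h3 : ‖aeval (padicEmbedding q (σ α)) h‖ ≤ c ^ m := by
      rw [← e2, ← hιd]
      rw [norm_apply_le_iff q σ hσ _ d hd0 hσd, hιd, e1]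
      exact h1
    calc ‖aeval (padicEmbedding q (σ α)) g‖
        = ‖(aeval (padicEmbedding q (σ α)) g - aeval (padicEmbedding q (σ α)) h) +
            aeval (padicEmbedding q (σ α)) h‖ := by rw [sub_add_cancel]
      _ ≤ ‖aeval (padicEmbedding q (σ α)) g - aeval (padicEmbedding q (σ α)) h‖ +
            ‖aeval (padicEmbedding q (σ α)) h‖ := norm_add_le _ _
      _ ≤ c ^ m + c ^ m := add_le_add h2 h3
      _ = 2 * c ^ m := (two_mul _).symm
  have hlim : Filter.Tendsto (fun m : ℕ => 2 * c ^ m) Filter.atTop (nhds (2 * 0)) :=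
    (tendsto_pow_atTop_nhds_zero_of_lt_one hc0.le hc1).const_mul 2
  rw [mul_zero] at hlim
  have hle : ‖aeval (padicEmbedding q (σ α)) g‖ ≤ 0 :=
    ge_of_tendsto' hlim hbound
  exact norm_le_zero_iff.1 hle


/-! ### Density -/

/-- Pointwise form: every value `σ α` is reached by some local automorphism. -/
theorem exists_local_apply_eq (σ : GQ) (hσ : σ ∈ (padicPlace q).decompositionSubgroup ℚ)
    (α : AlgebraicClosure ℚ) :
    ∃ τ : PadicAlgCl q ≃ₐ[ℚ_[q]] PadicAlgCl q, localGaloisToGlobal q τ α = σ α := by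
  have halg : IsAlgebraic ℚ_[q] (padicEmbedding q α) := Algebra.IsAlgebraic.isAlgebraic _
  obtain ⟨τ, hτ⟩ := minpoly.exists_algEquiv_of_root' halg
    (aeval_apply_minpoly_eq_zero q σ hσ α)
  refine ⟨τ, ?_⟩
  apply (padicEmbedding q).toRingHom.injective
  show padicEmbedding q (localGaloisToGlobal q τ α) = padicEmbedding q (σ α)
  rw [padicEmbedding_localGaloisToGlobal, hτ]

/-- a `ℚ`-automorphism fixing `a` fixes `ℚ(a)` pointwise -/
theorem mem_fixingSubgroup_adjoin_simple (s : GQ) (a : AlgebraicClosure ℚ) (h : s a = a) :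
    s ∈ (IntermediateField.adjoin ℚ {a}).fixingSubgroup := by
  rw [IntermediateField.mem_fixingSubgroup_iff]
  have hle : IntermediateField.adjoin ℚ {a} ≤
      IntermediateField.fixedField (Subgroup.zpowers s) := by
    rw [IntermediateField.adjoin_simple_le_iff, IntermediateField.mem_fixedField_iff]
    rintro t ht
    obtain ⟨n, rfl⟩ := Subgroup.mem_zpowers_iff.1 ht
    have hfix : ∀ n : ℕ, (s ^ n) a = a := by
      intro n
      induction n with
      | zero => rfl
      | succ n ih => rw [pow_succ, AlgEquiv.mul_apply, h, ih]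
    have hinv : ∀ t : GQ, t a = a → t⁻¹ a = a := by
      intro t ht
      conv_lhs => rw [← ht]
      exact t.symm_apply_apply a
    cases n with
    | ofNat n => simpa using hfix n
    | negSucc n =>
      rw [zpow_negSucc]
      exact hinv _ (hfix (n + 1))
  intro x hx
  exact (IntermediateField.mem_fixedField_iff _ x).1 (hle hx) s (Subgroup.mem_zpowers s)

theorem exists_eq_adjoin_simple_gen {K E : Type*} [Field K] [Field E] [Algebra K E]
    (L : IntermediateField K E) [FiniteDimensional K L] [Algebra.IsSeparable K L] :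
    ∃ a : E, L = IntermediateField.adjoin K {a} := by
  obtain ⟨α, hα⟩ := Field.exists_primitive_element K L
  refine ⟨(α : E), ?_⟩
  have h := congrArg (IntermediateField.map L.val) hα
  rw [IntermediateField.adjoin_map, Set.image_singleton, ← AlgHom.fieldRange_eq_map,
    IntermediateField.fieldRange_val] at h
  exact h.symm

theorem exists_eq_adjoin_simple (F : NF) [hF : FiniteDimensional ℚ F] :
    ∃ a : AlgebraicClosure ℚ, F = IntermediateField.adjoin ℚ {a} := by
  letI : Algebra ℚ ↥F := IntermediateField.algebra' F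
  haveI hF' : FiniteDimensional ℚ ↥F := hF
  haveI : Algebra.IsAlgebraic ℚ ↥F := Algebra.IsAlgebraic.of_finite ℚ ↥F
  haveI : Algebra.IsSeparable ℚ ↥F := inferInstance
  exact exists_eq_adjoin_simple_gen F

/-- **Density of the local Galois group in the decomposition group**, element-wise form. -/
theorem exists_local_lift (σ : GQ) (hσ : σ ∈ (padicPlace q).decompositionSubgroup ℚ)
    (F : NF) [FiniteDimensional ℚ F] :
    ∃ τ : PadicAlgCl q ≃ₐ[ℚ_[q]] PadicAlgCl q, (localGaloisToGlobal q τ)⁻¹ * σ ∈ F.fixingSubgroup := by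
  obtain ⟨a, rfl⟩ := exists_eq_adjoin_simple F
  obtain ⟨τ, hτ⟩ := exists_local_apply_eq q σ hσ a
  refine ⟨τ, mem_fixingSubgroup_adjoin_simple _ a ?_⟩
  show (localGaloisToGlobal q τ)⁻¹ (σ a) = a
  rw [← hτ]
  exact (localGaloisToGlobal q τ).symm_apply_apply a


/-! ### The named input `LocalDensity` holds; unconditional local criteria -/

omit q in
/-- **`LocalDensity q` holds for every prime `q`.** -/
theorem localDensity (q : Nat.Primes) : LocalDensity q := by
  letI : Fact (q : ℕ).Prime := ⟨q.2⟩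
  refine (localDensity_iff q).2 fun σ hσ F hF => ?_
  haveI := hF
  exact exists_local_lift (q : ℕ) σ hσ F

omit q in
/-- Unconditional form of `Local.locRes_H1π_eq_zero_iff`. -/
theorem locRes_H1π_eq_zero_iff {K : Type} [Field K] (S : Finset Nat.Primes) (q : ↥S)
    (A : Rep.{0} K GQ) (hsm : IsSmooth A) (c : cocycles₁ A)
    (hc : IsLevelConstant₁ (MonoidHom.id GQ) c) :
    (locRes (extArithLoc S) A (Sum.inr q)).hom ((H1π A).hom c) = 0 ↔
      ∃ m : A, ∀ σ ∈ decomp q.1, c σ = A.ρ σ m - m :=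
  Local.locRes_H1π_eq_zero_iff S q (localDensity q.1) A hsm c hc

omit q in
/-- Unconditional form of `Local.locRes₂S_eq_zero_iff`. -/
theorem locRes₂S_eq_zero_iff {k : Type} [CommRing k] (S : Finset Nat.Primes) (q : Nat.Primes)
    (M : Rep.{0} k GQ) (hM : IsUniformlySmooth M) (f : ↥(levelCocyclesS₂ S M)) :
    locRes₂S S M (primeLocalToGlobal q) (continuousH2Sπ S M f) = 0 ↔
      ∃ b : GQ → M, IsLevelConstant₁ (MonoidHom.id GQ) b ∧
        ∀ σ ∈ decomp q, ∀ σ' ∈ decomp q,
          (f : GQ × GQ → M) (σ, σ') = M.ρ σ (b σ') - b (σ * σ') + b σ :=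
  Local.locRes₂S_eq_zero_iff S q (localDensity q) M hM f

end Fermat.Agent.S55.ProfinLocal26.Decomp
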